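import Mathlib
import Fermat.Prelude.Def_ExtCitation_AdmissibleExtension_v2
import Fermat.Prelude.Def_ExtCitation_KummerBridge

/-!
# S14 (Ext vanishing): reduction to a statement about homomorphisms `G_K → 𝔽_p` (helper24)

`Γ = Gal(ℚ̄/ℚ)`, `χ = cycloChar p`, `G_K = ker χ` (`K = ℚ(ζ_p)`).

`Core p` : a function `b : Γ → ZMod p` which is additive on `G_K`, satisfies
`b (τ σ τ⁻¹) = χ(τ)⁻¹ b(σ)` for `σ ∈ G_K`, has open kernel in `G_K`, vanishes on the inertia groups
at all primes `ℓ ≠ p` and on the decomposition groups at `p` (intersected with `G_K`), vanishes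
on `G_K`.  (Number-theoretic content: there is no cyclic extension `L/K` of degree `p`, unramified
everywhere, totally split at `p`, Galois over `ℚ` with `Gal(K/ℚ)` acting on `Gal(L/K)` through
`ω⁻¹`.)

`extVanishingCts_of_core : Core p → ExtVanishingCts p` for `3 ≤ p`.
-/

set_option autoImplicit false
set_option linter.unusedSectionVars false
set_option linter.unusedVariables false
set_option linter.style.haveILetI false

namespace Fermat.Agent.S14x

open ExtCitation

/-- The absolute Galois group of `ℚ`. -/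
abbrev GQ : Type := AlgebraicClosure ℚ ≃ₐ[ℚ] AlgebraicClosure ℚ

variable (p : ℕ) [Fact p.Prime]

/-- **The number-theoretic core of S14**, on the Galois side. -/
def Core : Prop :=
  ∀ b : GQ → ZMod p,
    (∀ σ τ : GQ, cycloChar p σ = 1 → cycloChar p τ = 1 → b (σ * τ) = b σ + b τ) →
    (∀ τ σ : GQ, cycloChar p σ = 1 →
      b (τ * σ * τ⁻¹) = (((cycloChar p τ)⁻¹ : (ZMod p)ˣ) : ZMod p) * b σ) →
    IsOpen {σ : GQ | cycloChar p σ = 1 ∧ b σ = 0} →
    (∀ ℓ : ℕ, ℓ.Prime → ℓ ≠ p → ∀ A : ValuationSubring (AlgebraicClosure ℚ),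
      A.LiesOverPrime ℓ → ∀ σ ∈ A.inertiaSubgroupIn ℚ, cycloChar p σ = 1 → b σ = 0) →
    (∀ A : ValuationSubring (AlgebraicClosure ℚ), A.LiesOverPrime p →
      ∀ σ ∈ A.decompositionSubgroup ℚ, cycloChar p σ = 1 → b σ = 0) →
    ∀ σ : GQ, cycloChar p σ = 1 → b σ = 0

variable {p}

/-- `ℚ̄ / ℚ` is Galois. -/
theorem isGalois_rat' : IsGalois ℚ (AlgebraicClosure ℚ) := by
  have : Algebra.IsAlgebraic ℚ (AlgebraicClosure ℚ) := AlgebraicClosure.isAlgebraic ℚ
  have : IsAlgClosure ℚ (AlgebraicClosure ℚ) :=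
    (inferInstance :
      @IsAlgClosure ℚ (AlgebraicClosure ℚ) _ _ (AlgebraicClosure.instAlgebra ℚ) _)
  have : Normal ℚ (AlgebraicClosure ℚ) := IsAlgClosure.normal ℚ (AlgebraicClosure ℚ)
  exact IsGalois.mk

/-- For `p ≥ 3` the mod `p` cyclotomic character is nontrivial. -/
theorem exists_cycloChar_ne_one (hp3 : 3 ≤ p) : ∃ τ : GQ, cycloChar p τ ≠ 1 := by
  classical
  have hpp : p.Prime := Fact.out
  haveI : NeZero p := ⟨hpp.ne_zero⟩
  haveI : NeZero (p : AlgebraicClosure ℚ) := ⟨Nat.cast_ne_zero.mpr hpp.ne_zero⟩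
  obtain ⟨ζ, hζ⟩ := HasEnoughRootsOfUnity.exists_primitiveRoot (AlgebraicClosure ℚ) p
  -- `ζ` is not rational
  have hnot : ζ ∉ Set.range (algebraMap ℚ (AlgebraicClosure ℚ)) := by
    rintro ⟨q, hq⟩
    have hq' : IsPrimitiveRoot q p := by
      rw [← hq] at hζ
      exact hζ.of_map_of_injective (algebraMap ℚ (AlgebraicClosure ℚ)).injective
    have hodd : Odd p := hpp.odd_of_ne_two (by omega)
    have h1 : q ^ p = 1 := hq'.pow_eq_one
    have h2 : q = 1 := by
      have := hodd.strictMono_pow (R := ℚ)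
      exact this.injective (by simpa using h1)
    rw [h2] at hq'
    have := hq'.eq_orderOf
    rw [orderOf_one] at this
    omega
  haveI := isGalois_rat'
  rw [InfiniteGalois.mem_range_algebraMap_iff_fixed] at hnot
  push Not at hnot
  obtain ⟨τ, hτ⟩ := hnot
  refine ⟨τ, fun h1 => hτ ?_⟩
  have hmem : hζ.toRootsOfUnity.1 ∈ rootsOfUnity p (AlgebraicClosure ℚ) :=
    hζ.toRootsOfUnity.2
  have hspec := modularCyclotomicCharacter.spec (AlgebraicClosure ℚ)
    (card_rootsOfUnity_eq_self p) (τ : AlgebraicClosure ℚ ≃+* AlgebraicClosure ℚ) hmem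
  have h1' : modularCyclotomicCharacter (AlgebraicClosure ℚ) (card_rootsOfUnity_eq_self p)
      (τ : AlgebraicClosure ℚ ≃+* AlgebraicClosure ℚ) = 1 := h1
  rw [h1'] at hspec
  haveI : Fact (1 < p) := ⟨hpp.one_lt⟩
  simp only [IsPrimitiveRoot.val_toRootsOfUnity_coe, Units.val_one] at hspec
  have h3 : (τ : AlgebraicClosure ℚ ≃+* AlgebraicClosure ℚ) ζ = ζ := by
    simpa [ZMod.val_one] using hspec
  exact h3

section Reduction

variable {V : Type} [AddCommGroup V] [Module (ZMod p) V] [DistribMulAction GQ V]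
  [SMulCommClass GQ (ZMod p) V]

/-- The hypothesis `cyclo_quot` in terms of `cycloChar`. -/
lemma cyclo_quot' {C : Submodule (ZMod p) V} (hadm : IsAdmissibleExtension p V C) (σ : GQ)
    (x : V) : σ • x - ((cycloChar p σ : (ZMod p)ˣ) : ZMod p) • x ∈ C := by
  rw [coe_cycloChar]
  exact hadm.cyclo_quot σ x

/-- A Galois-stable complement from the triviality of the action of `G_K`. -/
theorem splitsGlobally_of_trivial {C : Submodule (ZMod p) V}
    (hadm : IsAdmissibleExtension p V C) {τ : GQ} (hτ : cycloChar p τ ≠ 1)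
    (htriv : ∀ σ : GQ, cycloChar p σ = 1 → ∀ x : V, σ • x = x) : SplitsGlobally C := by
  set u : ZMod p := ((cycloChar p τ : (ZMod p)ˣ) : ZMod p) with hu
  have hu1 : u - 1 ≠ 0 := by
    intro h
    apply hτ
    apply Units.ext
    rw [Units.val_one]
    exact sub_eq_zero.mp h
  -- the eigenspace of `τ` for the eigenvalue `χ(τ)`
  let f : V →ₗ[ZMod p] V :=
    { toFun := fun x => τ • x - u • x
      map_add' := fun x y => by rw [smul_add, smul_add]; abel
      map_smul' := fun a x => by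
        rw [RingHom.id_apply, smul_comm τ a x, smul_comm u a x, smul_sub] }
  have hf : ∀ x, f x = τ • x - u • x := fun x => rfl
  refine ⟨LinearMap.ker f, ?_, ?_⟩
  · -- stable
    intro σ x hx
    rw [LinearMap.mem_ker, hf] at hx ⊢
    have hcomm : τ • σ • x = σ • τ • x := by
      have h1 : cycloChar p (τ * σ * τ⁻¹ * σ⁻¹) = 1 := by
        rw [map_mul, map_mul, map_mul, map_inv, map_inv]
        rw [mul_comm (cycloChar p τ) (cycloChar p σ), mul_assoc (cycloChar p σ),
          mul_inv_cancel, mul_one, mul_inv_cancel]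
      have h2 := htriv _ h1 (σ • τ • x)
      rw [mul_smul, mul_smul, mul_smul, inv_smul_smul, inv_smul_smul] at h2
      exact h2
    rw [hcomm, ← smul_comm σ u x, ← smul_sub, hx, smul_zero]
  · -- complement
    rw [isCompl_iff]
    constructor
    · rw [Submodule.disjoint_def]
      intro x hxC hxK
      rw [LinearMap.mem_ker, hf, hadm.fixed_sub τ x hxC] at hxK
      have h3 : (1 - u) • x = 0 := by rw [sub_smul, one_smul]; exact hxK
      have h4 : (1 - u) ≠ 0 := fun h => hu1 (by rw [← neg_sub, h, neg_zero])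
      exact (smul_eq_zero.mp h3).resolve_left h4
    · rw [Submodule.codisjoint_iff_exists_add_eq]
      intro x
      have hc : τ • x - u • x ∈ C := cyclo_quot' hadm τ x
      set c : V := τ • x - u • x with hcdef
      refine ⟨-((u - 1)⁻¹ • c), x + (u - 1)⁻¹ • c, C.neg_mem (C.smul_mem _ hc), ?_, by abel⟩
      rw [LinearMap.mem_ker, hf, smul_add, smul_add, smul_comm τ ((u - 1)⁻¹) c,
        hadm.fixed_sub τ c hc]
      have h5 : τ • x = c + u • x := by rw [hcdef]; abel
      rw [h5]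
      have h6 : c = (u - 1) • ((u - 1)⁻¹ • c) := by
        rw [smul_smul, mul_inv_cancel₀ hu1, one_smul]
      generalize (u - 1)⁻¹ • c = d at h6 ⊢
      rw [h6, sub_smul, one_smul]
      abel

/-- From the core: `G_K` acts trivially on an admissible extension. -/
theorem trivial_of_core (hcore : Core p) {C : Submodule (ZMod p) V}
    (hadm : IsAdmissibleExtensionCts p V C) :
    ∀ σ : GQ, cycloChar p σ = 1 → ∀ x : V, σ • x = x := by
  classical
  have hpp : p.Prime := Fact.out
  have hA : IsAdmissibleExtension p V C := hadm.toIsAdmissibleExtension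
  -- finiteness
  have hVfin : Finite V := Nat.finite_of_card_ne_zero (by
    rw [hA.card_total]; exact pow_ne_zero _ hpp.ne_zero)
  have hCfin : Finite C := Nat.finite_of_card_ne_zero (by rw [hA.card_sub]; exact hpp.ne_zero)
  -- a vector outside `C`
  obtain ⟨v₀, hv₀⟩ : ∃ v₀ : V, v₀ ∉ C := by
    by_contra hcon
    push Not at hcon
    have hinj : Function.Injective (fun c : C => (c : V)) := Subtype.val_injective
    have hsurj : Function.Surjective (fun c : C => (c : V)) := fun x => ⟨⟨x, hcon x⟩, rfl⟩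
    have h1 : Nat.card C = Nat.card V := Nat.card_eq_of_bijective _ ⟨hinj, hsurj⟩
    rw [hA.card_sub, hA.card_total] at h1
    have h2 : p * 1 = p * p := by rw [mul_one, ← pow_two]; exact h1
    have h3 := Nat.eq_of_mul_eq_mul_left hpp.pos h2
    exact hpp.one_lt.ne h3
  -- a nonzero vector of `C`
  obtain ⟨c₀, hc₀C, hc₀⟩ : ∃ c₀ ∈ C, c₀ ≠ 0 := by
    by_contra hcon
    push Not at hcon
    have hsub : Subsingleton C := ⟨fun a b => Subtype.ext (by
      rw [hcon a.1 a.2, hcon b.1 b.2])⟩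
    have h1 : Nat.card C ≤ 1 := Finite.card_le_one_iff_subsingleton.mpr hsub
    rw [hA.card_sub] at h1
    exact absurd hpp.one_lt (not_lt.mpr h1)
  have hinj₀ : ∀ k : ZMod p, k • c₀ = 0 → k = 0 := fun k hk =>
    (smul_eq_zero.mp hk).resolve_right hc₀
  have hinj' : ∀ k k' : ZMod p, k • c₀ = k' • c₀ → k = k' := fun k k' h =>
    sub_eq_zero.mp (hinj₀ _ (by rw [sub_smul, h, sub_self]))
  -- `C` is generated by `c₀`
  have hgen : ∀ c ∈ C, ∃ k : ZMod p, c = k • c₀ := by
    let g : ZMod p → C := fun k => ⟨k • c₀, C.smul_mem k hc₀C⟩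
    have hg : Function.Injective g := by
      intro k k' h
      have h1 : k • c₀ = k' • c₀ := congrArg Subtype.val h
      have h2 : (k - k') • c₀ = 0 := by rw [sub_smul, h1, sub_self]
      exact sub_eq_zero.mp (hinj₀ _ h2)
    have hbij := hg.bijective_of_nat_card_le (by rw [hA.card_sub, Nat.card_zmod])
    intro c hc
    obtain ⟨k, hk⟩ := hbij.2 ⟨c, hc⟩
    exact ⟨k, (congrArg Subtype.val hk).symm⟩
  -- `V` is generated by `v₀` and `C`
  have hdec : ∀ x : V, ∃ a : ZMod p, ∃ c ∈ C, x = a • v₀ + c := by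
    let g : ZMod p × C → V := fun ac => ac.1 • v₀ + (ac.2 : V)
    have hg : Function.Injective g := by
      rintro ⟨a, c⟩ ⟨a', c'⟩ h
      have h1 : a • v₀ + (c : V) = a' • v₀ + (c' : V) := h
      have h2 : (a - a') • v₀ = (c' : V) - (c : V) := by
        rw [sub_smul, sub_eq_sub_iff_add_eq_add, h1, add_comm]
      have h3 : a - a' = 0 := by
        by_contra hne
        apply hv₀
        have h4 : v₀ = (a - a')⁻¹ • ((c' : V) - (c : V)) := by
          rw [← h2, smul_smul, inv_mul_cancel₀ hne, one_smul]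
        rw [h4]
        exact C.smul_mem _ (C.sub_mem c'.2 c.2)
      have h5 : a = a' := sub_eq_zero.mp h3
      subst h5
      have h6 : (c : V) = (c' : V) := by
        rw [sub_self, zero_smul] at h2
        exact (sub_eq_zero.mp h2.symm).symm
      rw [Subtype.ext h6]
    have hbij := hg.bijective_of_nat_card_le (by
      rw [hA.card_total, Nat.card_prod, Nat.card_zmod, hA.card_sub, pow_two])
    intro x
    obtain ⟨⟨a, c⟩, hac⟩ := hbij.2 x
    exact ⟨a, c, c.2, hac.symm⟩
  -- the function `b`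
  have hb : ∀ σ : GQ, ∃ k : ZMod p,
      σ • v₀ - ((cycloChar p σ : (ZMod p)ˣ) : ZMod p) • v₀ = k • c₀ :=
    fun σ => hgen _ (cyclo_quot' hA σ v₀)
  choose b hbspec using hb
  have hb1 : ∀ σ : GQ, cycloChar p σ = 1 → σ • v₀ = v₀ + b σ • c₀ := by
    intro σ hσ
    have := hbspec σ
    rw [hσ, Units.val_one, one_smul] at this
    rw [← this]
    abel
  have hfixC : ∀ σ : GQ, σ • c₀ = c₀ := fun σ => hA.fixed_sub σ c₀ hc₀C
  -- the action is trivial iff `χ = 1` and `b = 0`
  have hb0_of_fix : ∀ σ : GQ, σ • v₀ = v₀ → cycloChar p σ = 1 ∧ b σ = 0 := by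
    intro σ hσ
    have h1 := cyclo_quot' hA σ v₀
    rw [hσ] at h1
    have h2 : ((cycloChar p σ : (ZMod p)ˣ) : ZMod p) = 1 := by
      by_contra hne
      have hne' : (1 - ((cycloChar p σ : (ZMod p)ˣ) : ZMod p)) ≠ 0 :=
        fun h => hne (sub_eq_zero.mp h).symm
      apply hv₀
      have h3 : (1 - ((cycloChar p σ : (ZMod p)ˣ) : ZMod p)) • v₀ ∈ C := by
        rw [sub_smul, one_smul]; exact h1
      have h4 : v₀ = (1 - ((cycloChar p σ : (ZMod p)ˣ) : ZMod p))⁻¹ •
          ((1 - ((cycloChar p σ : (ZMod p)ˣ) : ZMod p)) • v₀) := by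
        rw [smul_smul, inv_mul_cancel₀ hne', one_smul]
      rw [h4]
      exact C.smul_mem _ h3
    have h5 : cycloChar p σ = 1 := Units.ext (by rw [h2, Units.val_one])
    refine ⟨h5, ?_⟩
    have h6 := hb1 σ h5
    rw [hσ] at h6
    have h7 : b σ • c₀ = 0 := by
      have := congrArg (fun z => z - v₀) h6
      simp only [sub_self, add_sub_cancel_left] at this
      exact this.symm
    exact hinj₀ _ h7
  have hfix_of_b0 : ∀ σ : GQ, cycloChar p σ = 1 → b σ = 0 → ∀ x : V, σ • x = x := by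
    intro σ hσ hbσ x
    obtain ⟨a, c, hc, rfl⟩ := hdec x
    rw [smul_add, smul_comm σ a v₀, hb1 σ hσ, hbσ, zero_smul, add_zero, hA.fixed_sub σ c hc]
  -- apply the core
  have key := hcore b ?_ ?_ ?_ ?_ ?_
  · intro σ hσ x
    exact hfix_of_b0 σ hσ (key σ hσ) x
  · -- additivity on `G_K`
    intro σ τ hσ hτ
    have hστ : cycloChar p (σ * τ) = 1 := by rw [map_mul, hσ, hτ, one_mul]
    have h1 : (σ * τ) • v₀ = v₀ + (b σ + b τ) • c₀ := by
      rw [mul_smul, hb1 τ hτ, smul_add, hb1 σ hσ, smul_comm σ (b τ) c₀, hfixC σ, add_smul,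
        add_assoc]
    rw [hb1 (σ * τ) hστ] at h1
    exact hinj' _ _ (add_left_cancel h1)
  · -- twisted equivariance
    intro τ σ hσ
    have hconj : cycloChar p (τ * σ * τ⁻¹) = 1 := by
      rw [map_mul, map_mul, map_inv, hσ, mul_one, mul_inv_cancel]
    set u : ZMod p := ((cycloChar p τ : (ZMod p)ˣ) : ZMod p) with hu
    set ui : ZMod p := (((cycloChar p τ)⁻¹ : (ZMod p)ˣ) : ZMod p) with hui
    have huui : ui * u = 1 := by
      rw [hu, hui, ← Units.val_mul, inv_mul_cancel, Units.val_one]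
    -- `τ⁻¹ v₀ = ui v₀ + d` with `d ∈ C`
    have hd : τ⁻¹ • v₀ - ui • v₀ ∈ C := by
      have h := cyclo_quot' hA τ⁻¹ v₀
      rw [map_inv] at h
      exact h
    obtain ⟨e, he⟩ := hgen _ hd
    have hτi : τ⁻¹ • v₀ = ui • v₀ + e • c₀ := by rw [← he]; abel
    have hτ : τ • v₀ = u • v₀ + b τ • c₀ := by
      have := hbspec τ
      rw [← this]
      abel
    -- the action of `τ` on `ui • v₀ + k • c₀`
    have hτk : ∀ k : ZMod p, τ • (ui • v₀ + k • c₀) = v₀ + (ui * b τ + k) • c₀ := by
      intro k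
      rw [smul_add, smul_comm τ ui v₀, hτ, smul_comm τ k c₀, hfixC τ, smul_add, smul_smul,
        huui, one_smul, smul_smul, add_assoc, ← add_smul]
    -- `τ τ⁻¹ v₀ = v₀`
    have h0' : ui * b τ + e = 0 := by
      have h := smul_inv_smul τ v₀
      rw [hτi, hτk e] at h
      have h2 : (ui * b τ + e) • c₀ = 0 :=
        add_left_cancel (a := v₀) (b := (ui * b τ + e) • c₀) (c := 0) (by rw [h, add_zero])
      exact hinj₀ _ h2
    -- `σ τ⁻¹ v₀`
    have hσ1 : σ • τ⁻¹ • v₀ = ui • v₀ + (ui * b σ + e) • c₀ := by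
      rw [hτi, smul_add, smul_comm σ ui v₀, hb1 σ hσ, smul_comm σ e c₀, hfixC σ, smul_add,
        smul_smul, add_assoc, ← add_smul]
    -- `τ σ τ⁻¹ v₀`
    have h1 : (τ * σ * τ⁻¹) • v₀ = v₀ + (ui * b σ) • c₀ := by
      rw [mul_smul, mul_smul, hσ1, hτk]
      have h2 : ui * b τ + (ui * b σ + e) = ui * b σ + (ui * b τ + e) := by ring
      rw [h2, h0', add_zero]
    rw [hb1 (τ * σ * τ⁻¹) hconj] at h1
    exact hinj' _ _ (add_left_cancel h1)
  · -- open kernel
    have hset : {σ : GQ | cycloChar p σ = 1 ∧ b σ = 0} = {σ : GQ | ∀ v : V, σ • v = v} := by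
      ext σ
      constructor
      · rintro ⟨h1, h2⟩
        exact hfix_of_b0 σ h1 h2
      · intro h
        exact hb0_of_fix σ (h v₀)
    rw [hset]
    exact hadm.open_kernel
  · -- inertia outside `p`
    intro ℓ hℓ hℓp A hAℓ σ hσ _
    exact (hb0_of_fix σ (hA.unramified_outside ℓ hℓ hℓp A hAℓ σ hσ v₀)).2
  · -- decomposition group at `p`
    intro A hAp σ hσ hχ
    obtain ⟨C', hC', hcompl⟩ := hA.locally_split A hAp
    have hfixC' : ∀ x ∈ C', σ • x = x := by
      intro x hx
      have h1 : σ • x - x ∈ C := by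
        have := cyclo_quot' hA σ x
        rw [hχ, Units.val_one, one_smul] at this
        exact this
      have h2 : σ • x - x ∈ C' := C'.sub_mem (hC' σ hσ x hx) hx
      have h3 : σ • x - x = 0 := by
        have := Submodule.disjoint_def.mp hcompl.disjoint (σ • x - x) h1 h2
        exact this
      exact sub_eq_zero.mp h3
    have hv : σ • v₀ = v₀ := by
      obtain ⟨y, z, hy, hz, hyz⟩ := Submodule.codisjoint_iff_exists_add_eq.mp hcompl.codisjoint v₀
      rw [← hyz, smul_add, hA.fixed_sub σ y hy, hfixC' z hz]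
    exact (hb0_of_fix σ hv).2

end Reduction

/-- **Reduction of S14 to the core.** -/
theorem extVanishingCts_of_core (hp3 : 3 ≤ p) (hcore : Core p) : ExtVanishingCts p := by
  intro V _ _ _ _ C hadm
  obtain ⟨τ, hτ⟩ := exists_cycloChar_ne_one (p := p) hp3
  exact splitsGlobally_of_trivial hadm.toIsAdmissibleExtension hτ (trivial_of_core hcore hadm)

end Fermat.Agent.S14x
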